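import Fermat.Agent.H70.SS2.NormBCAbs
import Fermat.Agent.H35.SS2.Interfaces

/-!
# P-SS2 row 988 (SS2-C8-N, NORMBC) : norms along `α`, `β` commute with the extension of the
field of constants (helper70)

`normBaseChange : Fermat.Agent.H35.SS2.NormBaseChangeStatement`.

The hypotheses `NBCHyp` of the abstract norm base change (`NormBCAbs`) are verified for the
function fields `laurentBaseChange K₁ F₀ → laurentBaseChange ℚ̄ F₀` (coefficientwise base change
`klBc ι`):

* linear disjointness `hD` : coefficientwise (`nbc_hD`);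
* ratios `hR` : `IntermediateField.mem_adjoin_iff_div` (`nbc_ratio`).
-/

set_option autoImplicit false
set_option linter.style.haveILetI false

noncomputable section

namespace Fermat.Agent.H70.SS2

open ModularCurve AlgebraicCurve Fermat.Agent.H93.KL Fermat.Agent.H11.SS2

section Laurent

/-- Coefficients of a finite combination with constant coefficients. -/
theorem nbc_coeff_sum {R : Type*} [Field R] {T : Type*} (s : Finset T) (c : T → R)
    (X : T → LaurentSeries R) (n : ℤ) :
    (∑ t ∈ s, algebraMap R (LaurentSeries R) (c t) * X t).coeff n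
      = ∑ t ∈ s, c t * (X t).coeff n := by
  classical
  induction s using Finset.induction_on with
  | empty => simp
  | insert a s ha ih =>
      have e : algebraMap R (LaurentSeries R) (c a) * X a = c a • X a := by
        rw [algebraMap_laurentSeries_eq_single]
        exact HahnSeries.C_mul_eq_smul
      rw [Finset.sum_insert ha, Finset.sum_insert ha, HahnSeries.coeff_add, ih, e,
        HahnSeries.coeff_smul, smul_eq_mul]

/-- `coeffMap` commutes with `qExpand`. -/
theorem nbc_coeffMap_qExpand {R S : Type*} [CommRing R] [CommRing S] (f : R →+* S) (n : ℕ)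
    [NeZero n] (x : LaurentSeries R) :
    coeffMap f (qExpand R n x) = qExpand S n (coeffMap f x) := by
  ext k
  by_cases hk : (n : ℤ) ∣ k
  · obtain ⟨m, rfl⟩ := hk
    rw [coeffMap_coeff, qExpand_coeff_mul, qExpand_coeff_mul, coeffMap_coeff]
  · rw [coeffMap_coeff, qExpand_coeff_of_not_dvd n _ hk, qExpand_coeff_of_not_dvd n _ hk,
      map_zero]

variable {K₁ : Type} [Field K₁] [Algebra ℚ K₁] (ι : K₁ →+* QBar)
  (F₀ : IntermediateField ℚ (LaurentSeries ℚ))

/-- Base change of a constant. -/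
theorem nbc_klBc_algebraMap (c : K₁) :
    klBc ι F₀ (algebraMap K₁ ↥(laurentBaseChange K₁ F₀) c) =
      algebraMap QBar ↥(laurentBaseChange QBar F₀) (ι c) := by
  apply Subtype.ext
  rw [klBc_coe]
  show coeffMap ι (algebraMap K₁ (LaurentSeries K₁) c) = algebraMap QBar (LaurentSeries QBar) (ι c)
  rw [algebraMap_laurentSeries_eq_single, algebraMap_laurentSeries_eq_single, coeffMap_single]

/-- Base change of a rational function. -/
theorem nbc_coeffMap_coeffEmb (t : LaurentSeries ℚ) :
    coeffMap ι (coeffEmb K₁ t) = coeffEmb QBar t := by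
  rw [coeffEmb, coeffMap_coeffMap]
  exact coeffMap_congr (RingHom.ext fun c => by simp) t

/-- **Linear disjointness, functional form.** -/
theorem nbc_hD [Algebra K₁ QBar] (hι : ∀ c, algebraMap K₁ QBar c = ι c)
    (θ : QBar →ₗ[K₁] K₁) (T : Type) [Fintype T] (mu : T → QBar)
    (y : T → ↥(laurentBaseChange K₁ F₀))
    (h : ∑ t, algebraMap QBar ↥(laurentBaseChange QBar F₀) (mu t) * klBc ι F₀ (y t) = 0) :
    ∑ t, algebraMap K₁ ↥(laurentBaseChange K₁ F₀) (θ (mu t)) * y t = 0 := by
  classical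
  have h1 : ∑ t, algebraMap QBar (LaurentSeries QBar) (mu t)
      * coeffMap ι ((y t : ↥(laurentBaseChange K₁ F₀)) : LaurentSeries K₁) = 0 := by
    have := congrArg (laurentBaseChange QBar F₀).val h
    rw [map_sum, map_zero] at this
    exact this
  have h2 : ∀ n : ℤ, ∑ t, θ (mu t) * ((y t : ↥(laurentBaseChange K₁ F₀)) :
      LaurentSeries K₁).coeff n = 0 := by
    intro n
    have h3 := congrArg (fun s : LaurentSeries QBar => s.coeff n) h1
    simp only [nbc_coeff_sum, coeffMap_coeff, HahnSeries.coeff_zero] at h3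
    have h4 := congrArg θ h3
    rw [map_sum, map_zero] at h4
    rw [← h4]
    refine Finset.sum_congr rfl fun t _ => ?_
    have e : mu t * ι (((y t : ↥(laurentBaseChange K₁ F₀)) : LaurentSeries K₁).coeff n)
        = (((y t : ↥(laurentBaseChange K₁ F₀)) : LaurentSeries K₁).coeff n) • mu t := by
      rw [Algebra.smul_def, hι, mul_comm]
    rw [e, map_smul, smul_eq_mul, mul_comm]
  apply Subtype.ext
  have h5 : (((∑ t, algebraMap K₁ ↥(laurentBaseChange K₁ F₀) (θ (mu t)) * y t :
      ↥(laurentBaseChange K₁ F₀)) : ↥(laurentBaseChange K₁ F₀)) : LaurentSeries K₁)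
      = ∑ t, algebraMap K₁ (LaurentSeries K₁) (θ (mu t))
          * ((y t : ↥(laurentBaseChange K₁ F₀)) : LaurentSeries K₁) := by
    have := map_sum (laurentBaseChange K₁ F₀).val
      (fun t => algebraMap K₁ ↥(laurentBaseChange K₁ F₀) (θ (mu t)) * y t) Finset.univ
    exact this
  rw [h5]
  ext n
  rw [nbc_coeff_sum, h2 n]
  rfl

/-- Elements of the `ℚ̄`-algebra generated by the rational functions are `ℚ̄`-combinations of
base changes. -/
theorem nbc_adjoin_inSpan (x : LaurentSeries QBar)
    (hx : x ∈ Algebra.adjoin QBar (⇑(coeffEmb QBar) '' (F₀ : Set (LaurentSeries ℚ)))) :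
    ∃ r : ↥(laurentBaseChange QBar F₀),
      NInSpan (algebraMap QBar ↥(laurentBaseChange QBar F₀)) (klBc ι F₀) r ∧
        (r : LaurentSeries QBar) = x := by
  induction hx using Algebra.adjoin_induction with
  | mem y hy =>
      obtain ⟨t, ht, rfl⟩ := hy
      refine ⟨klBc ι F₀ ⟨coeffEmb K₁ t, coeffEmb_mem_laurentBaseChange K₁ ht⟩,
        NInSpan.of_bc _, ?_⟩
      rw [klBc_coe]
      exact nbc_coeffMap_coeffEmb ι t
  | algebraMap c =>
      exact ⟨algebraMap QBar ↥(laurentBaseChange QBar F₀) c, NInSpan.of_jb c, rfl⟩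
  | add x y _ _ hx hy =>
      obtain ⟨r, hr, rfl⟩ := hx
      obtain ⟨s, hs, rfl⟩ := hy
      exact ⟨r + s, hr.add hs, rfl⟩
  | mul x y _ _ hx hy =>
      obtain ⟨r, hr, rfl⟩ := hx
      obtain ⟨s, hs, rfl⟩ := hy
      exact ⟨r * s, hr.mul hs, rfl⟩

/-- **Ratios.**  Every element of `F_{ℚ̄}` is a ratio of `ℚ̄`-combinations of base changes. -/
theorem nbc_ratio (c : ↥(laurentBaseChange QBar F₀)) :
    ∃ r s : ↥(laurentBaseChange QBar F₀),
      NInSpan (algebraMap QBar ↥(laurentBaseChange QBar F₀)) (klBc ι F₀) r ∧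
      NInSpan (algebraMap QBar ↥(laurentBaseChange QBar F₀)) (klBc ι F₀) s ∧
      s ≠ 0 ∧ c * s = r := by
  obtain ⟨r, hr, s, hs, hrs⟩ := IntermediateField.mem_adjoin_iff_div.mp c.2
  obtain ⟨r', hr', rfl⟩ := nbc_adjoin_inSpan ι F₀ r hr
  obtain ⟨s', hs', rfl⟩ := nbc_adjoin_inSpan ι F₀ s hs
  by_cases h0 : s' = 0
  · refine ⟨0, 1, NInSpan.zero, NInSpan.one, one_ne_zero, ?_⟩
    rw [mul_one]
    apply Subtype.ext
    rw [hrs, h0]
    simp
  · refine ⟨r', s', hr', hs', h0, ?_⟩
    apply Subtype.ext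
    have h1 : ((s' : ↥(laurentBaseChange QBar F₀)) : LaurentSeries QBar) ≠ 0 := fun h =>
      h0 (Subtype.ext h)
    show (c : LaurentSeries QBar) * (s' : LaurentSeries QBar) = (r' : LaurentSeries QBar)
    rw [hrs, div_mul_cancel₀ _ h1]

/-- **The hypotheses of the abstract norm base change hold for coefficientwise base change.** -/
theorem nbcHyp_laurent [Algebra K₁ QBar] (hι : ∀ c, algebraMap K₁ QBar c = ι c)
    (F₀' : IntermediateField ℚ (LaurentSeries ℚ))
    [Algebra ↥(laurentBaseChange K₁ F₀) ↥(laurentBaseChange K₁ F₀')]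
    [Algebra ↥(laurentBaseChange QBar F₀) ↥(laurentBaseChange QBar F₀')]
    (hK : ∀ c : K₁, algebraMap ↥(laurentBaseChange K₁ F₀) ↥(laurentBaseChange K₁ F₀')
      (algebraMap K₁ ↥(laurentBaseChange K₁ F₀) c) = algebraMap K₁ ↥(laurentBaseChange K₁ F₀') c)
    (hQ : ∀ c : QBar, algebraMap ↥(laurentBaseChange QBar F₀) ↥(laurentBaseChange QBar F₀')
      (algebraMap QBar ↥(laurentBaseChange QBar F₀) c)
        = algebraMap QBar ↥(laurentBaseChange QBar F₀') c)
    (hcomm : ∀ a : ↥(laurentBaseChange K₁ F₀),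
      klBc ι F₀' (algebraMap ↥(laurentBaseChange K₁ F₀) ↥(laurentBaseChange K₁ F₀') a)
        = algebraMap ↥(laurentBaseChange QBar F₀) ↥(laurentBaseChange QBar F₀') (klBc ι F₀ a)) :
    NBCHyp (algebraMap K₁ ↥(laurentBaseChange K₁ F₀))
      (algebraMap QBar ↥(laurentBaseChange QBar F₀))
      (algebraMap QBar ↥(laurentBaseChange QBar F₀')) (klBc ι F₀) (klBc ι F₀') where
  hjk c := by rw [nbc_klBc_algebraMap, hι]
  hjb := hQ
  hcomm := hcomm
  hD θ T _ mu y h := by
    have := nbc_hD ι F₀' hι θ T mu y h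
    simpa only [hK] using this
  hR := nbc_ratio ι F₀
  hR' := nbc_ratio ι F₀'

end Laurent

section Comm

variable (L ℓ : ℕ) [NeZero L] [NeZero ℓ] {K₁ : Type} [Field K₁] [Algebra ℚ K₁] (ι : K₁ →+* QBar)

/-- Base change commutes with `α`. -/
theorem nbc_comm_alpha (a : ↥(laurentBaseChange K₁ (modularFunctionFieldFull L))) :
    klBc ι (modularFunctionFieldFull (L * ℓ)) (heckeAlphaBar K₁ L ℓ a)
      = heckeAlphaBar QBar L ℓ (klBc ι (modularFunctionFieldFull L) a) := by
  apply Subtype.ext
  rw [klBc_coe, coe_heckeAlphaBar, coe_heckeAlphaBar, klBc_coe]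

/-- Base change commutes with `β`. -/
theorem nbc_comm_beta (a : ↥(laurentBaseChange K₁ (modularFunctionFieldFull L))) :
    klBc ι (modularFunctionFieldFull (L * ℓ)) (heckeBetaBar K₁ L ℓ a)
      = heckeBetaBar QBar L ℓ (klBc ι (modularFunctionFieldFull L) a) := by
  apply Subtype.ext
  rw [klBc_coe, coe_heckeBetaBar, coe_heckeBetaBar, klBc_coe]
  exact nbc_coeffMap_qExpand ι ℓ _

/-- Norm base change along an arbitrary pair of compatible embeddings. -/
theorem nbc_norm_along
    (φ : ↥(laurentBaseChange K₁ (modularFunctionFieldFull L)) →ₐ[K₁]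
      ↥(laurentBaseChange K₁ (modularFunctionFieldFull (L * ℓ))))
    (φb : ↥(laurentBaseChange QBar (modularFunctionFieldFull L)) →ₐ[QBar]
      ↥(laurentBaseChange QBar (modularFunctionFieldFull (L * ℓ))))
    (hφ : ∀ a, klBc ι (modularFunctionFieldFull (L * ℓ)) (φ a)
      = φb (klBc ι (modularFunctionFieldFull L) a))
    (u : ↥(laurentBaseChange K₁ (modularFunctionFieldFull (L * ℓ)))) :
    klBc ι (modularFunctionFieldFull L) (ss2NormAlong φ u) =
      ss2NormAlong φb (klBc ι (modularFunctionFieldFull (L * ℓ)) u) := by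
  letI algι : Algebra K₁ QBar := ι.toAlgebra
  have hι : ∀ c, algebraMap K₁ QBar c = ι c := fun _ => rfl
  letI a1 : Algebra ↥(laurentBaseChange K₁ (modularFunctionFieldFull L))
      ↥(laurentBaseChange K₁ (modularFunctionFieldFull (L * ℓ))) := φ.toRingHom.toAlgebra
  letI a2 : Algebra ↥(laurentBaseChange QBar (modularFunctionFieldFull L))
      ↥(laurentBaseChange QBar (modularFunctionFieldFull (L * ℓ))) := φb.toRingHom.toAlgebra
  have H := nbcHyp_laurent ι (modularFunctionFieldFull L) hι (modularFunctionFieldFull (L * ℓ))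
    (fun c => φ.commutes c) (fun c => φb.commutes c) hφ
  exact H.norm_eq u

end Comm

/-- **(N)** norms along `α`, `β` commute with the extension of the field of constants. -/
theorem normBaseChange : Fermat.Agent.H35.SS2.NormBaseChangeStatement := by
  intro L ℓ _ _ K₁ _ _ ι u
  exact ⟨nbc_norm_along L ℓ ι _ _ (nbc_comm_alpha L ℓ ι) u,
    nbc_norm_along L ℓ ι _ _ (nbc_comm_beta L ℓ ι) u⟩

end Fermat.Agent.H70.SS2
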