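import Mathlib

/-!
# P-SS2 row 988 (SS2-C8-N, NORMBC), abstract part (helper70) : norms commute with an extension of
the field of constants

Setting: fields `k ⊆ kb` (constants), a finite or infinite field extension `F' / F` of
"function fields over `k`" and `Fb' / Fb` of "function fields over `kb`", ring homomorphisms
`bc : F → Fb`, `bc' : F' → Fb'` (extension of constants) compatible with the two extensions.
Hypotheses (`NBCHyp`):

* `hD`  (linear disjointness, functional form): for every `k`-linear functional `θ : kb → k`, a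
  relation `∑ μ_t bc'(y_t) = 0` in `Fb'` implies `∑ θ(μ_t) y_t = 0` in `F'`;
* `hR`, `hR'` : every element of `Fb` (resp. `Fb'`) is a ratio of `kb`-linear combinations of
  elements of `bc F` (resp. `bc' F'`).

Conclusions:

* `NBCHyp.linearIndependent` : a family of `F'` linearly independent over `F` stays linearly
  independent over `Fb`;
* `NBCHyp.span_eq_top` : a basis of `F' / F` spans `Fb' / Fb`;
* `NBCHyp.norm_eq` : `bc (N_{F'/F} u) = N_{Fb'/Fb} (bc' u)` (also when the extensions are
  infinite: both norms are `1`).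
-/

set_option autoImplicit false
set_option linter.style.haveILetI false

noncomputable section

namespace Fermat.Agent.H70.SS2

open Module

section Span

variable {kb F Fb : Type*} [Field kb] [Field F] [Field Fb] (jb : kb →+* Fb) (bc : F →+* Fb)

/-- `x` is a finite `kb`-linear combination of elements of `bc F`. -/
def NInSpan (x : Fb) : Prop :=
  ∃ (T : Type) (_ : Fintype T) (lam : T → kb) (a : T → F), x = ∑ t, jb (lam t) * bc (a t)

variable {jb bc}

theorem NInSpan.one : NInSpan jb bc 1 :=
  ⟨Unit, inferInstance, fun _ => 1, fun _ => 1, by simp⟩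

theorem NInSpan.of_bc (a : F) : NInSpan jb bc (bc a) :=
  ⟨Unit, inferInstance, fun _ => 1, fun _ => a, by simp⟩

theorem NInSpan.of_jb (c : kb) : NInSpan jb bc (jb c) :=
  ⟨Unit, inferInstance, fun _ => c, fun _ => 1, by simp⟩

theorem NInSpan.zero : NInSpan jb bc 0 := by
  have h := NInSpan.of_jb (jb := jb) (bc := bc) 0
  rwa [map_zero] at h

theorem NInSpan.add {x y : Fb} (hx : NInSpan jb bc x) (hy : NInSpan jb bc y) :
    NInSpan jb bc (x + y) := by
  obtain ⟨T, _, lam, a, rfl⟩ := hx
  obtain ⟨T', _, mu, b, rfl⟩ := hy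
  refine ⟨T ⊕ T', inferInstance, Sum.elim lam mu, Sum.elim a b, ?_⟩
  rw [Fintype.sum_sum_type]
  simp

theorem NInSpan.mul {x y : Fb} (hx : NInSpan jb bc x) (hy : NInSpan jb bc y) :
    NInSpan jb bc (x * y) := by
  obtain ⟨T, _, lam, a, rfl⟩ := hx
  obtain ⟨T', _, mu, b, rfl⟩ := hy
  refine ⟨T × T', inferInstance, fun p => lam p.1 * mu p.2, fun p => a p.1 * b p.2, ?_⟩
  rw [Finset.sum_mul_sum, Fintype.sum_prod_type]
  refine Finset.sum_congr rfl fun t _ => Finset.sum_congr rfl fun t' _ => ?_
  rw [map_mul, map_mul]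
  ring

theorem NInSpan.prod {ι : Type*} (s : Finset ι) (x : ι → Fb)
    (hx : ∀ i ∈ s, NInSpan jb bc (x i)) : NInSpan jb bc (∏ i ∈ s, x i) :=
  Finset.prod_induction x (NInSpan jb bc) (fun _ _ => NInSpan.mul) NInSpan.one hx

end Span

section Abstract

variable {k kb F F' Fb Fb' : Type*} [Field k] [Field kb] [Field F] [Field F'] [Field Fb]
  [Field Fb'] [Algebra k kb] [Algebra F F'] [Algebra Fb Fb']

/-- The hypotheses of the abstract norm base change. -/
structure NBCHyp (jk : k →+* F) (jb : kb →+* Fb) (jb' : kb →+* Fb') (bc : F →+* Fb)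
    (bc' : F' →+* Fb') : Prop where
  hjk : ∀ c : k, bc (jk c) = jb (algebraMap k kb c)
  hjb : ∀ c : kb, algebraMap Fb Fb' (jb c) = jb' c
  hcomm : ∀ a : F, bc' (algebraMap F F' a) = algebraMap Fb Fb' (bc a)
  hD : ∀ (θ : kb →ₗ[k] k) (T : Type) [Fintype T] (mu : T → kb) (y : T → F'),
    ∑ t, jb' (mu t) * bc' (y t) = 0 → ∑ t, algebraMap F F' (jk (θ (mu t))) * y t = 0
  hR : ∀ c : Fb, ∃ r s : Fb, NInSpan jb bc r ∧ NInSpan jb bc s ∧ s ≠ 0 ∧ c * s = r
  hR' : ∀ c : Fb', ∃ r s : Fb', NInSpan jb' bc' r ∧ NInSpan jb' bc' s ∧ s ≠ 0 ∧ c * s = r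

variable {jk : k →+* F} {jb : kb →+* Fb} {jb' : kb →+* Fb'} {bc : F →+* Fb} {bc' : F' →+* Fb'}

/-- A `kb`-combination of elements of `bc F` all of whose "coordinates" vanish is zero. -/
theorem nbc_zero_of_functionals (hjk : ∀ c : k, bc (jk c) = jb (algebraMap k kb c))
    {T : Type} [Fintype T] (lam : T → kb) (a : T → F)
    (h : ∀ θ : kb →ₗ[k] k, ∑ t, jk (θ (lam t)) * a t = 0) :
    ∑ t, jb (lam t) * bc (a t) = 0 := by
  classical
  let E := Basis.ofVectorSpace k kb
  let S : Finset (Basis.ofVectorSpaceIndex k kb) :=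
    Finset.univ.biUnion fun t => (E.repr (lam t)).support
  have hlam : ∀ t, lam t = ∑ i ∈ S, algebraMap k kb (E.repr (lam t) i) * E i := by
    intro t
    have h1 := E.linearCombination_repr (lam t)
    rw [Finsupp.linearCombination_apply, Finsupp.sum_of_support_subset _ (s := S)
      (Finset.subset_biUnion_of_mem (fun t => (E.repr (lam t)).support) (Finset.mem_univ t)) _
      (fun i _ => by simp)] at h1
    conv_lhs => rw [← h1]
    refine Finset.sum_congr rfl fun i _ => ?_
    rw [Algebra.smul_def]
  calc ∑ t, jb (lam t) * bc (a t)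
      = ∑ t, ∑ i ∈ S, jb (E i) * bc (jk (E.repr (lam t) i) * a t) := by
        refine Finset.sum_congr rfl fun t _ => ?_
        conv_lhs => rw [hlam t]
        rw [map_sum, Finset.sum_mul]
        refine Finset.sum_congr rfl fun i _ => ?_
        rw [map_mul, map_mul, hjk]
        ring
    _ = ∑ i ∈ S, jb (E i) * bc (∑ t, jk (E.repr (lam t) i) * a t) := by
        rw [Finset.sum_comm]
        refine Finset.sum_congr rfl fun i _ => ?_
        rw [map_sum, Finset.mul_sum]
    _ = 0 := by
        refine Finset.sum_eq_zero fun i _ => ?_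
        have h2 := h (E.coord i)
        simp only [Basis.coord_apply] at h2
        rw [h2, map_zero, mul_zero]

/-- Linear independence over `F` is preserved, for coefficients in the span. -/
theorem NBCHyp.ld_core (H : NBCHyp jk jb jb' bc bc') {n : ℕ} (b : Fin n → F')
    (hb : LinearIndependent F b) (x : Fin n → Fb) (hx : ∀ j, NInSpan jb bc (x j))
    (hrel : ∑ j, algebraMap Fb Fb' (x j) * bc' (b j) = 0) : ∀ j, x j = 0 := by
  classical
  choose T instT lam a hxa using hx
  have hθ : ∀ (θ : kb →ₗ[k] k) (j : Fin n), ∑ t, jk (θ (lam j t)) * a j t = 0 := by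
    intro θ
    have h1 : ∑ p : (Σ j, T j), jb' (lam p.1 p.2) * bc' (algebraMap F F' (a p.1 p.2) * b p.1)
        = 0 := by
      rw [← hrel, Fintype.sum_sigma]
      refine Finset.sum_congr rfl fun j _ => ?_
      rw [hxa j, map_sum, Finset.sum_mul]
      refine Finset.sum_congr rfl fun t _ => ?_
      rw [map_mul, map_mul, H.hjb, H.hcomm]
      ring
    have h2 := H.hD θ (Σ j, T j) (fun p => lam p.1 p.2)
      (fun p => algebraMap F F' (a p.1 p.2) * b p.1) h1
    have h3 : ∑ j, (∑ t, jk (θ (lam j t)) * a j t) • b j = 0 := by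
      rw [← h2, Fintype.sum_sigma]
      refine Finset.sum_congr rfl fun j _ => ?_
      rw [Finset.sum_smul]
      refine Finset.sum_congr rfl fun t _ => ?_
      rw [Algebra.smul_def, map_mul, mul_assoc]
    exact Fintype.linearIndependent_iff.mp hb _ h3
  intro j
  rw [hxa j]
  exact nbc_zero_of_functionals H.hjk (lam j) (a j) (fun θ => hθ θ j)

/-- **Linear disjointness**: a family of `F'` linearly independent over `F` stays linearly
independent over `Fb`. -/
theorem NBCHyp.linearIndependent (H : NBCHyp jk jb jb' bc bc') {n : ℕ} (b : Fin n → F')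
    (hb : LinearIndependent F b) : LinearIndependent Fb (bc' ∘ b) := by
  classical
  rw [Fintype.linearIndependent_iff]
  intro g hg
  choose r s hr hs hs0 hrs using fun j => H.hR (g j)
  set sall : Fb := ∏ j, s j with hsall
  have hsall0 : sall ≠ 0 := Finset.prod_ne_zero_iff.mpr fun j _ => hs0 j
  have hx : ∀ j, NInSpan jb bc (g j * sall) := by
    intro j
    have e : g j * sall = r j * ∏ i ∈ Finset.univ.erase j, s i := by
      rw [← hrs j, mul_assoc, hsall, Finset.mul_prod_erase _ _ (Finset.mem_univ j)]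
    rw [e]
    exact (hr j).mul (NInSpan.prod _ _ fun i _ => hs i)
  have hrel : ∑ j, algebraMap Fb Fb' (g j * sall) * bc' (b j) = 0 := by
    have e : ∑ j, algebraMap Fb Fb' (g j * sall) * bc' (b j)
        = algebraMap Fb Fb' sall * ∑ j, g j • (bc' ∘ b) j := by
      rw [Finset.mul_sum]
      refine Finset.sum_congr rfl fun j _ => ?_
      rw [Algebra.smul_def, map_mul, Function.comp_apply]
      ring
    rw [e, hg, mul_zero]
  intro j
  exact (mul_eq_zero.mp (H.ld_core b hb _ hx hrel j)).resolve_right hsall0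

/-- **Generation**: a basis of `F' / F` spans `Fb' / Fb`. -/
theorem NBCHyp.span_eq_top (H : NBCHyp jk jb jb' bc bc') {n : ℕ} (b : Basis (Fin n) F F') :
    ⊤ ≤ Submodule.span Fb (Set.range (bc' ∘ b)) := by
  classical
  set S := Submodule.span Fb (Set.range (bc' ∘ b)) with hS
  have h1 : ∀ y : F', bc' y ∈ S := by
    intro y
    rw [← b.sum_repr y, map_sum]
    refine Submodule.sum_mem _ fun i _ => ?_
    rw [Algebra.smul_def, map_mul, H.hcomm, ← Algebra.smul_def]
    exact Submodule.smul_mem _ _ (Submodule.subset_span ⟨i, rfl⟩)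
  set A : Subalgebra Fb Fb' := Algebra.adjoin Fb (Set.range bc') with hA
  have hcl : ((Submonoid.closure (Set.range bc') : Submonoid Fb') : Set Fb') = Set.range bc' := by
    have h : Set.range bc' = ((MonoidHom.mrange (bc' : F' →* Fb') : Submonoid Fb') : Set Fb') := by
      ext z
      simp
    rw [h, Submonoid.closure_eq]
  have hAS : Subalgebra.toSubmodule A ≤ S := by
    rw [hA, Algebra.adjoin_eq_span, hcl]
    exact Submodule.span_le.mpr (by rintro _ ⟨y, rfl⟩; exact h1 y)
  have hSfin : FiniteDimensional Fb S :=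
    FiniteDimensional.span_of_finite Fb (Set.finite_range _)
  have hAfg : (Subalgebra.toSubmodule A).FG := by
    haveI : FiniteDimensional Fb (Subalgebra.toSubmodule A) :=
      Submodule.finiteDimensional_of_le hAS
    exact (Submodule.fg_iff_finiteDimensional _).mpr inferInstance
  have hmemA : ∀ z : Fb', NInSpan jb' bc' z → z ∈ A := by
    rintro z ⟨T, _, lam, a, rfl⟩
    refine A.sum_mem fun t _ => A.mul_mem ?_ (Algebra.subset_adjoin ⟨a t, rfl⟩)
    rw [← H.hjb]
    exact A.algebraMap_mem _
  intro z _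
  obtain ⟨r, s, hr, hs, hs0, hrs⟩ := H.hR' z
  have hsA : s ∈ A := hmemA s hs
  have hrA : r ∈ A := hmemA r hr
  have halg : IsAlgebraic Fb s := (IsIntegral.of_mem_of_fg A hAfg s hsA).isAlgebraic
  have hinv : s⁻¹ ∈ A := A.inv_mem_of_algebraic (x := ⟨s, hsA⟩) halg
  have hz : z = r * s⁻¹ := by
    rw [← hrs, mul_assoc, mul_inv_cancel₀ hs0, mul_one]
  rw [hz]
  exact hAS (A.mul_mem hrA hinv)

/-- Finiteness descends. -/
theorem NBCHyp.finite_of_finite (H : NBCHyp jk jb jb' bc bc') (hfin : Module.Finite Fb Fb') :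
    Module.Finite F F' := by
  classical
  have hrank : Module.rank F F' ≤ (Module.finrank Fb Fb' : ℕ) := by
    refine rank_le fun s hs => ?_
    -- reindex by `Fin`
    have hs' : LinearIndependent F (fun i : Fin s.card => ((s.equivFin.symm i : s) : F')) :=
      hs.comp _ s.equivFin.symm.injective
    have h2 := H.linearIndependent _ hs'
    have h3 := h2.fintype_card_le_finrank
    simpa using h3
  exact Module.rank_lt_aleph0_iff.mp (lt_of_le_of_lt hrank (Cardinal.nat_lt_aleph0 _))

/-- **Norms commute with the extension of constants.** -/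
theorem NBCHyp.norm_eq (H : NBCHyp jk jb jb' bc bc') (u : F') :
    bc (Algebra.norm F u) = Algebra.norm Fb (bc' u) := by
  classical
  by_cases hfin : Module.Finite F F'
  · -- a basis goes to a basis
    let b : Basis (Fin (Module.finrank F F')) F F' := Module.finBasis F F'
    let b' : Basis (Fin (Module.finrank F F')) Fb Fb' :=
      Basis.mk (H.linearIndependent b b.linearIndependent) (H.span_eq_top b)
    have hb' : ∀ i, b' i = bc' (b i) := fun i => by
      simp [b', Basis.mk_apply]
    rw [Algebra.norm_eq_matrix_det b u, Algebra.norm_eq_matrix_det b' (bc' u), RingHom.map_det]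
    congr 1
    ext i j
    rw [RingHom.mapMatrix_apply, Matrix.map_apply, Algebra.leftMulMatrix_eq_repr_mul,
      Algebra.leftMulMatrix_eq_repr_mul]
    have h1 : bc' u * b' j = ∑ l, bc (b.repr (u * b j) l) • b' l := by
      rw [hb' j, ← map_mul, ← b.sum_repr (u * b j), map_sum]
      refine Finset.sum_congr rfl fun l _ => ?_
      rw [Algebra.smul_def, map_mul, H.hcomm, ← Algebra.smul_def, hb' l]
      congr 2
      rw [b.sum_repr]
    rw [h1, map_sum]
    simp only [map_smul, Basis.repr_self, Finsupp.smul_single, smul_eq_mul, mul_one]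
    rw [Finset.sum_apply']
    simp [Finsupp.single_apply]
  · rw [Algebra.norm_eq_one_of_not_module_finite hfin,
      Algebra.norm_eq_one_of_not_module_finite (fun h => hfin (H.finite_of_finite h)), map_one]

end Abstract

end Fermat.Agent.H70.SS2
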